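import Fermat.Agent.Jac.Ops.Mor

/-!
# Base change of sections along homomorphisms to fields

Semilinear maps out of a bundle extend along base changes; sections over a domain have coordinates,
the lattices are saturated, and over a valuation ring a section can be scaled to be nonzero on every
fibre. -/

set_option autoImplicit false

universe u

noncomputable section

open TensorProduct

namespace Fermat.Agent.Jac.Sep

/-- Semilinear maps out of an invertible module extend along a base change. -/
theorem exists_lift {A A' M M' P : Type u} [CommRing A] [CommRing A'] (φ : A →+* A')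
    [AddCommGroup M] [Module A M] [Module.Invertible A M] [AddCommGroup M'] [Module A' M']
    [Module.Invertible A' M'] [AddCommGroup P] [Module A' P] (f : M →+ M')
    (hf : ∀ a m, f (a • m) = φ a • f m) (hspan : Submodule.span A' (Set.range f) = ⊤) (ψ : M →+ P)
    (hψ : ∀ a m, ψ (a • m) = φ a • ψ m) :
    ∃ h : M' →ₗ[A'] P, ∀ m, h (f m) = ψ m := by
  let := φ.toAlgebra
  let : Module A M' := Module.compHom M' φ
  let : Module A P := Module.compHom P φ
  have : IsScalarTower A A' M' := ⟨fun a b m => mul_smul (φ a) b m⟩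
  have : IsScalarTower A A' P := ⟨fun a b m => mul_smul (φ a) b m⟩
  let fl : M →ₗ[A] M' := { toFun := f, map_add' := map_add f, map_smul' := hf }
  let ψl : M →ₗ[A] P := { toFun := ψ, map_add' := map_add ψ, map_smul' := hψ }
  have hsurj : Function.Surjective (fl.liftBaseChange A') := by
    rw [← LinearMap.range_eq_top, eq_top_iff, ← hspan, Submodule.span_le]
    rintro _ ⟨m, rfl⟩
    exact ⟨1 ⊗ₜ m, by simp [fl]⟩
  let e := LinearEquiv.ofBijective _ (Module.Invertible.bijective_of_surjective hsurj)
  refine ⟨(ψl.liftBaseChange A').comp e.symm.toLinearMap, fun m => ?_⟩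
  have h1 : e.symm (f m) = (1 : A') ⊗ₜ m := e.injective (by simp [e, fl])
  simp [h1, ψl]

variable {k : Type u} [Field k]

/-- Divisibility by an element of the fibre is not changed by scalars from a domain. -/
theorem dvd_of_smul_dvd {B : Type u} [CommRing B] [Algebra k B] (s : B) {V : Type u} [CommRing V]
    [IsDomain V] [Algebra k V] {c : V} (hc : c ≠ 0) {a a' : V ⊗[k] B} (h : c • a = (1 ⊗ₜ s) * a') :
    ∃ a'', a = (1 ⊗ₜ s) * a'' := by
  let π := (Ideal.span {s}).restrictScalars k |>.mkQ
  let μ := LinearMap.mulLeft k s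
  have hex : Function.Exact μ π := by
    intro b
    simp only [π, μ, Submodule.mkQ_apply, Submodule.Quotient.mk_eq_zero,
      Submodule.restrictScalars_mem,
      Ideal.mem_span_singleton, Set.mem_range, LinearMap.mulLeft_apply, dvd_def, eq_comm (a := b)]
  have hex' := lTensor_exact V hex (Submodule.mkQ_surjective _)
  have hμ : ∀ x : V ⊗[k] B, μ.lTensor V x = (1 ⊗ₜ s) * x := by
    intro x
    induction x with
    | zero => simp
    | tmul v b => simp [μ, Algebra.TensorProduct.tmul_mul_tmul]
    | add x y hx hy => rw [map_add, hx, hy, mul_add]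
  have h0 : c • π.baseChange V a = 0 := by
    rw [← map_smul, h, ← hμ, LinearMap.baseChange_eq_ltensor]
    exact hex'.apply_apply_eq_zero a'
  have h1 : π.lTensor V a = 0 := by
    rw [← LinearMap.baseChange_eq_ltensor]
    exact (smul_eq_zero.mp h0).resolve_left hc
  obtain ⟨a'', ha⟩ := (hex' a).mp h1
  exact ⟨a'', by rw [← hμ, ha]⟩

variable {D : CurveData k} {R R' : Type u} [CommRing R] [Algebra k R] [CommRing R'] [Algebra k R']

variable (L : LB D R)

/-- The lattices are saturated with respect to scalars from a domain. -/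
theorem mem_of_smul_mem [IsDomain R] {i : Fin 2} {c : R} (hc : c ≠ 0) {m : L.M}
    (h : c • m ∈ L.L i) :
    m ∈ L.L i := by
  obtain ⟨N, hN⟩ := L.exists_pow_smul_mem i m
  obtain ⟨n, f, g, -, -, hfg⟩ := Module.Finite.exists_comp_eq_id_of_projective (D.A R i) (L.L i)
  let x : L.L i := ⟨_, hN⟩
  let y : L.L i := ⟨_, h⟩
  have hxy : c • x = D.tR R i ^ N • y := Subtype.ext (smul_comm c (D.tR R i ^ N) m)
  have hdvd : ∀ j, ∃ a, g x j = ((1 : R) ⊗ₜ[k] (D.t i ^ N)) * a := fun j =>
    dvd_of_smul_dvd (D.t i ^ N) hc (a := g x j) (a' := g y j) (by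
      have h1 := congrFun (congrArg g hxy) j
      rw [LinearMap.map_smul_of_tower, map_smul, Pi.smul_apply, Pi.smul_apply, smul_eq_mul] at h1
      rw [h1, CurveData.tR, Algebra.TensorProduct.tmul_pow, one_pow])
  choose a ha using hdvd
  have hga : g x = D.tR R i ^ N • a := funext fun j => by
    rw [ha, Pi.smul_apply, smul_eq_mul, CurveData.tR, Algebra.TensorProduct.tmul_pow, one_pow]
  have hx : D.tR R i ^ N • m = D.tR R i ^ N • (f a : L.M) := by
    have h1 : x = D.tR R i ^ N • f a := by
      rw [← map_smul, ← hga]; exact (LinearMap.congr_fun hfg x).symm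
    exact congrArg Subtype.val h1
  simp only [← algebraMap_smul (D.A01 R) (D.tR R i ^ N), map_pow,
    ((CurveData.isUnit_tR i).pow N).smul_left_cancel] at hx
  exact hx ▸ (f a).2

variable {L} {φ : R →ₐ[k] R'} {L' : LB D R'} (g : LB.Mor φ L L')

/-- The coordinates of a section in the kernel of a base change die. -/
theorem map_eq_zero_of_f_eq_zero (π : L.M →ₗ[D.A01 R] D.A01 R) {m : L.M} (hm : g.f m = 0) :
    D.mapA01 φ (π m) = 0 := by
  obtain ⟨h, hh⟩ := exists_lift (D.mapA01 φ).toRingHom g.f g.map_smul g.span_top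
    ((D.mapA01 φ).toRingHom.toAddMonoidHom.comp π.toAddMonoidHom) fun a x => by simp
  have := hh m
  rw [hm, map_zero] at this
  simpa using this.symm

theorem repr_mapA01 {ι : Type u} (bb : Module.Basis ι k D.B01) (a : D.A01 R) (b : ι) :
    (Algebra.TensorProduct.basis R' bb).repr (D.mapA01 φ a) b =
      φ ((Algebra.TensorProduct.basis R bb).repr a b) := by
  induction a using TensorProduct.induction_on with
  | zero => simp
  | tmul r x =>
    simp [CurveData.mapA01, Algebra.TensorProduct.basis_repr_tmul, Finsupp.mapRange_apply]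
  | add x y hx hy => simp [hx, hy]

/-- Over a valuation ring a nonzero section is a multiple of one which is nonzero on every fibre. -/
theorem exists_normalised {V : Type u} [CommRing V] [IsDomain V] [ValuationRing V] [Algebra k V]
    {L : LB D V} {x : L.M} (hx : x ≠ 0) :
    ∃ (c : V) (x' : L.M), c ≠ 0 ∧ c • x' = x ∧
      ∀ (F : Type u) [Field F] [Algebra k F] (φ : V →ₐ[k] F) (L' : LB D F) (g : LB.Mor φ L L'),
        g.f x' ≠ 0 := by
  classical
  -- Take coordinates in a free module containing `L` as a summand.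
  obtain ⟨n, f, γ, -, hγ, hfg⟩ := Module.Finite.exists_comp_eq_id_of_projective (D.A01 V) L.M
  let bb := Module.Free.chooseBasis k D.B01
  let bV := Algebra.TensorProduct.basis V bb
  let T : Finset (Fin n × Module.Free.ChooseBasisIndex k D.B01) :=
    Finset.univ.biUnion fun j => (bV.repr (γ x j)).support.image (Prod.mk j)
  let S : Finset V := T.image fun p => bV.repr (γ x p.1) p.2
  have hS : ∀ j b, bV.repr (γ x j) b ∈ Ideal.span (S : Set V) := fun j b => by
    by_cases h : bV.repr (γ x j) b = 0
    · rw [h]; exact zero_mem _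
    · refine Ideal.subset_span (Finset.mem_image.mpr ⟨(j, b),
        Finset.mem_biUnion.mpr ⟨j, by simp, ?_⟩, rfl⟩)
      exact Finset.mem_image.mpr ⟨b, Finsupp.mem_support_iff.mpr h, rfl⟩
  -- Over a valuation ring their ideal is principal; divide by its generator `c`.
  obtain ⟨c, hc⟩ := IsBezout.isPrincipal_of_FG (Ideal.span (S : Set V)) ⟨S, rfl⟩
  have hdiv : ∀ j b, c ∣ bV.repr (γ x j) b := fun j b => by
    have := hS j b
    rw [hc] at this
    exact Ideal.mem_span_singleton.mp this
  have hc0 : c ≠ 0 := by
    rintro rfl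
    refine hx (hγ ((funext fun j => bV.repr.injective (Finsupp.ext fun b => ?_)).trans
      (map_zero γ).symm))
    simpa using hdiv j b
  choose r hr using hdiv
  have hfin : ∀ j, ∀ b, b ∉ (bV.repr (γ x j)).support → r j b = 0 := fun j b hb => by
    rw [Finsupp.notMem_support_iff, hr] at hb
    exact (mul_eq_zero.mp hb).resolve_left hc0
  let y : Fin n → D.A01 V := fun j => bV.repr.symm (Finsupp.onFinset _ (r j) fun b hb =>
    not_not.mp (mt (hfin j b) hb))
  have hy : ∀ j b, bV.repr (y j) b = r j b := fun j b => by simp [y]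
  have hcy : c • y = γ x := funext fun j => bV.repr.injective (Finsupp.ext fun b => by
    simp [hy, hr])
  have hxy : c • f y = x := by
    rw [← LinearMap.map_smul_of_tower, hcy]
    exact LinearMap.congr_fun hfg x
  have hγy : γ (f y) = y := by
    have h1 : c • γ (f y) = c • y := by rw [← LinearMap.map_smul_of_tower, hxy, hcy]
    refine funext fun j => bV.repr.injective (Finsupp.ext fun b => ?_)
    have h2 := congrArg (fun z => bV.repr z b) (congrFun h1 j)
    simpa [hc0] using h2
  refine ⟨c, f y, hc0, hxy, fun F _ _ φ L' g h0 => ?_⟩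
  -- If it vanished on a fibre, so would all its coordinates; but they generate `(1)`.
  have hφ : ∀ j b, φ (r j b) = 0 := fun j b => by
    have h1 := map_eq_zero_of_f_eq_zero g ((LinearMap.proj j).comp γ) h0
    rw [LinearMap.comp_apply, LinearMap.proj_apply, hγy] at h1
    rw [← hy, ← repr_mapA01 (φ := φ) bb, h1]
    simp
  have hcmem : c ∈ Ideal.span (S : Set V) := hc ▸ Ideal.mem_span_singleton_self c
  obtain ⟨l, -, hl⟩ := Submodule.mem_span_finset.mp hcmem
  have hrS : ∀ a ∈ S, ∃ q, a = c * q ∧ φ q = 0 := fun a ha => by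
    obtain ⟨p, -, rfl⟩ := Finset.mem_image.mp ha
    exact ⟨_, hr _ _, hφ _ _⟩
  choose! q hq hq0 using hrS
  have h1 : c * ∑ a ∈ S, l a * q a = c * 1 := by
    rw [Finset.mul_sum, mul_one]
    refine Eq.trans (Finset.sum_congr rfl fun a ha => ?_) hl
    rw [smul_eq_mul, mul_left_comm, ← hq a ha]
  have h2 := congrArg φ (mul_left_cancel₀ hc0 h1)
  rw [map_sum, map_one, Finset.sum_eq_zero (fun a ha => by rw [map_mul, hq0 a ha, mul_zero])] at h2
  exact zero_ne_one h2

/-- A base change along an injective map to a field is injective. -/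
theorem injective_of_injective {V K : Type u} [CommRing V] [IsDomain V] [ValuationRing V]
    [Algebra k V] [Field K] [Algebra k K] {φ : V →ₐ[k] K} (hφ : Function.Injective φ) {L : LB D V}
    {L' : LB D K} (g : LB.Mor φ L L') : Function.Injective g.f := by
  refine (injective_iff_map_eq_zero _).mpr fun x hx => ?_
  by_contra h
  obtain ⟨c, x', hc, rfl, h'⟩ := exists_normalised h
  rw [LB.Mor.f_smul_base, smul_eq_zero] at hx
  exact hx.elim (fun h0 => hc (hφ (by rw [h0, map_zero]))) (h' K φ L' g)

end Fermat.Agent.Jac.Sep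

end
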